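/-
S18 / wave 4, bridge to the landed S24 closure (helper88): ramification of the function field of
`X₀(N)` over `ℚ̄(j)` at the finite places, in `Place.ord` form.

For a place `P` of `F_N = modularFunctionFieldBar N` and `c : ℚ̄` with `0 < ord_P (j - c)`:
* `c ≠ 0`, `c ≠ 1728`  ⟹  `ord_P (j - c) = 1`          (unramified),
* `c = 0`              ⟹  `ord_P (j) ∣ 3`,
* `c = 1728`           ⟹  `ord_P (j - 1728) ∣ 2`.

Source: `Fermat.Agent.S24.exists_modularGlobalData` (local monodromy `centerPerm`) and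
`LocalData.upstream` (`ord π = minimal period of the monodromy`).
-/
import Fermat.Agent.S24.ModGlobal
import Fermat.Agent.S24.LocalSum

set_option autoImplicit false

open AlgebraicCurve ModularCurve Fermat.Agent.S24
open scoped MatrixGroups

noncomputable section

namespace Fermat.Agent.S18.H88

/-- `-1` acts trivially on `SL(2,ℤ) ⧸ Γ₀(N)`. -/
theorem neg_one_smul_XX (N : ℕ) (x : XX N) : (-1 : SL(2, ℤ)) • x = x := by
  induction x using QuotientGroup.induction_on with
  | H g =>
    rw [MulAction.Quotient.smul_mk, QuotientGroup.eq]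
    have h : (((-1 : SL(2, ℤ)) • g)⁻¹ * g) = -1 := by
      simp
    rw [h]
    rw [CongruenceSubgroup.Gamma0_mem]
    simp

theorem ST_pow_three : (ModularGroup.S * ModularGroup.T) ^ 3 = (-1 : SL(2, ℤ)) := by
  apply Subtype.ext
  simp only [pow_succ, pow_zero, one_mul, Matrix.SpecialLinearGroup.coe_mul, ModularGroup.S,
    ModularGroup.T, Matrix.SpecialLinearGroup.coe_neg, Matrix.SpecialLinearGroup.coe_one]
  decide

theorem S_pow_two : ModularGroup.S ^ 2 = (-1 : SL(2, ℤ)) := by
  apply Subtype.ext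
  simp only [ModularGroup.S, Matrix.SpecialLinearGroup.coe_neg, Matrix.SpecialLinearGroup.coe_one]
  decide

theorem toPerm_pow_eq_one (N : ℕ) (g : SL(2, ℤ)) (n : ℕ) (h : g ^ n = -1) :
    (MulAction.toPerm g : Equiv.Perm (XX N)) ^ n = 1 := by
  have h1 : (MulAction.toPerm g : Equiv.Perm (XX N)) ^ n = MulAction.toPerm (g ^ n) :=
    (map_pow (MulAction.toPermHom SL(2, ℤ) (XX N)) g n).symm
  rw [h1, h]
  ext x
  exact neg_one_smul_XX N x

theorem toPerm_ST_pow_three (N : ℕ) :
    (MulAction.toPerm (ModularGroup.S * ModularGroup.T) : Equiv.Perm (XX N)) ^ 3 = 1 :=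
  toPerm_pow_eq_one N _ 3 ST_pow_three

theorem toPerm_S_pow_two (N : ℕ) :
    (MulAction.toPerm ModularGroup.S : Equiv.Perm (XX N)) ^ 2 = 1 :=
  toPerm_pow_eq_one N _ 2 S_pow_two

theorem minimalPeriod_dvd_of_pow_eq_one {X : Type*} (ρ : Equiv.Perm X) (n : ℕ) (h : ρ ^ n = 1)
    (x : X) : Function.minimalPeriod ρ x ∣ n := by
  apply Function.IsPeriodicPt.minimalPeriod_dvd
  rw [Function.IsPeriodicPt, Function.IsFixedPt, ← Equiv.Perm.coe_pow, h]
  rfl

/-- The ramification index of `F_N / ℚ̄(j)` at a place over `j = c` is the minimal period of the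
local monodromy. -/
theorem exists_ord_eq_minimalPeriod (N : ℕ) [NeZero N] (P : Place Kbar (FF N)) (c : Kbar)
    (hpos : 0 < P.ord (jgen N - algebraMap Kbar (FF N) c)) :
    ∃ x : XX N, P.ord (jgen N - algebraMap Kbar (FF N) c) =
      (Function.minimalPeriod (centerPerm N c) x : ℤ) := by
  classical
  have : Fintype (XX N) := Fintype.ofFinite _
  obtain ⟨G, hfin, -⟩ := exists_modularGlobalData N
  have U := (G.fin c).upstream G.frac
  obtain ⟨x, hx⟩ := U.exists_rel_of_place P hpos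
  refine ⟨x, ?_⟩
  rw [U.ord_π_eq_minimalPeriod P hpos x hx, hfin c]

/-- Unramified outside `j ∈ {0, 1728, ∞}`. -/
theorem ord_j_sub_eq_one (N : ℕ) [NeZero N] (P : Place Kbar (FF N)) (c : Kbar) (hc0 : c ≠ 0)
    (hc1 : c ≠ 1728) (hpos : 0 < P.ord (jgen N - algebraMap Kbar (FF N) c)) :
    P.ord (jgen N - algebraMap Kbar (FF N) c) = 1 := by
  obtain ⟨x, hx⟩ := exists_ord_eq_minimalPeriod N P c hpos
  rw [hx, centerPerm, if_neg hc0, if_neg hc1]
  have h1 : Function.minimalPeriod (⇑(1 : Equiv.Perm (XX N))) x = 1 :=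
    Function.minimalPeriod_eq_one_iff_isFixedPt.mpr rfl
  rw [h1]
  rfl

/-- Over `j = 0` the ramification index divides `3`. -/
theorem ord_j_dvd_three (N : ℕ) [NeZero N] (P : Place Kbar (FF N)) (hpos : 0 < P.ord (jgen N)) :
    P.ord (jgen N) ∣ 3 := by
  have hpos' : 0 < P.ord (jgen N - algebraMap Kbar (FF N) 0) := by simpa using hpos
  obtain ⟨x, hx⟩ := exists_ord_eq_minimalPeriod N P 0 hpos'
  have h0 : P.ord (jgen N) = P.ord (jgen N - algebraMap Kbar (FF N) 0) := by simp
  rw [h0, hx, centerPerm, if_pos rfl]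
  exact_mod_cast minimalPeriod_dvd_of_pow_eq_one _ 3 (toPerm_ST_pow_three N) x

/-- Over `j = 1728` the ramification index divides `2`. -/
theorem ord_j_sub_dvd_two (N : ℕ) [NeZero N] (P : Place Kbar (FF N))
    (hpos : 0 < P.ord (jgen N - algebraMap Kbar (FF N) 1728)) :
    P.ord (jgen N - algebraMap Kbar (FF N) 1728) ∣ 2 := by
  obtain ⟨x, hx⟩ := exists_ord_eq_minimalPeriod N P 1728 hpos
  rw [hx, centerPerm, if_neg (by norm_num), if_pos rfl]
  exact_mod_cast minimalPeriod_dvd_of_pow_eq_one _ 2 (toPerm_S_pow_two N) x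

end Fermat.Agent.S18.H88
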