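/-
S18 / wave 4, bridge to the landed S24 closure (helper88): ramification of the function field of
`X₀(N)` over `ℚ̄(j_d)` for EVERY generator `j_d = j(q^d)`, `d ∣ N`, at the finite places, in
`Place.ord` form (no Fricke involution needed).

For a place `P` of `F_N = modularFunctionFieldBar N`, a divisor `d` of `N` and `c : ℚ̄` with
`0 < ord_P (j_d - c)`:
* `c ≠ 0`, `c ≠ 1728`  ⟹  `ord_P (j_d - c) = 1`          (unramified),
* `c = 0`              ⟹  `ord_P (j_d) ∣ 3`,
* `c = 1728`           ⟹  `ord_P (j_d - 1728) ∣ 2`.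

Proof: `P` is not a cusp (at the cusps the expansions of the translates of `j_d` have a pole), so
`P` lies over a finite center `c₀` of `j = j_1`; there the landed local data of S24 identify
`ord_P f · s = (order of the Taylor expansion of a translate of f) · ord_P (j - c₀)`, the
translates of `j_d` are `J((Aτ+B)/D)`, and the order of `J - J(τ₀)` at any `τ₀` is `1, 2, 3`
(`H64.analyticOrderAt_Jfun_sub`).
-/
import Fermat.Agent.S24.ModGlobal
import Fermat.Agent.S24.LocalSum
import Fermat.Agent.S24.Residue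
import Fermat.Agent.S24.H64.JOrder
import Fermat.Agent.S18.H88.BranchJ

set_option autoImplicit false

open AlgebraicCurve ModularCurve Fermat.Agent.S24 UpperHalfPlane Filter Topology
open scoped MatrixGroups Manifold

noncomputable section

namespace Fermat.Agent.S18.H88

/-- `j_d` is the evaluation of the variable `X_d`. -/
theorem evF_X_eq_jF (N : ℕ) (d : N.divisors) : evF N (MvPolynomial.X d) = jF N d := by
  simp [evF]

theorem algebraMap_eq_evF_C (N : ℕ) (a : Kbar) :
    algebraMap Kbar (FF N) a = evF N (MvPolynomial.C a) := by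
  rw [← MvPolynomial.algebraMap_eq, AlgHom.commutes]

theorem jF_sub_eq_evF (N : ℕ) (d : N.divisors) (a : Kbar) :
    jF N d - algebraMap Kbar (FF N) a = evF N (MvPolynomial.X d - MvPolynomial.C a) := by
  rw [map_sub, evF_X_eq_jF, algebraMap_eq_evF_C]

/-- Every element of `F_N` is a quotient of polynomials in the `j_d`. -/
theorem frac_evF (N : ℕ) [NeZero N] : ∀ f : FF N, ∃ a ∈ (evF N).range, ∃ b ∈ (evF N).range,
    b ≠ 0 ∧ f = a / b := by
  intro f
  obtain ⟨P, Q, hQ, hf⟩ := evF_frac N f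
  exact ⟨evF N P, ⟨P, rfl⟩, evF N Q, ⟨Q, rfl⟩, hQ, hf⟩

/-- At the cusps the expansion of a translate of `j_d` has a pole. -/
theorem order_PhiInf_X_neg (N : ℕ) [NeZero N] (x : XX N) (d : N.divisors) :
    (coeffMap iota (PhiInf N x (MvPolynomial.X d))).order < 0 := by
  obtain ⟨A, B, D, hA, hD, -, hAD, h⟩ := exists_affine_transl N x d
  have hdN : (d : ℕ) ∣ N := Nat.dvd_of_mem_divisors d.2
  have hDN : D ∣ N := (Dvd.intro_left A hAD).trans hdN
  obtain ⟨e, he⟩ := hDN
  obtain ⟨ζ, -, hζ⟩ := exists_iota_eq_exp B D hD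
  have he0 : e ≠ 0 := by
    rintro rfl
    exact NeZero.ne N (by rw [he, mul_zero])
  have : NeZero (e * A) := ⟨Nat.mul_ne_zero he0 hA.ne'⟩
  have hexp := Fermat.Agent.S24.H88.hasExp_Jfun_affine N A B D (e * A) hA hD
    (by rw [he]; ring) ζ hζ
  have heq : transl N x (MvPolynomial.X d)
      = fun τ : ℍ => Jfun (ofComplex (((A : ℂ) * τ + B) / D)) := funext h
  have h2 := hasExp_PhiInf N x (MvPolynomial.X d)
  rw [heq] at h2
  rw [HasExp.unique (tendsto_qN N) h2 hexp, order_coeffMap, order_qExpand, order_scaleHom,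
    Fermat.Agent.S24.H59inf.order_jqModC_Kbar]
  have hpos : (0 : ℤ) < ((e * A : ℕ) : ℤ) := by
    exact_mod_cast Nat.pos_of_ne_zero (Nat.mul_ne_zero he0 hA.ne')
  linarith

/-- A pole of `j = j_1` is a pole of every `j_d`. -/
theorem ord_jF_neg_of_ord_jgen_neg (N : ℕ) [NeZero N] (d : N.divisors) (P : Place Kbar (FF N))
    (hneg : P.ord (jgen N) < 0) : P.ord (jF N d) < 0 := by
  classical
  have : Fintype (XX N) := Fintype.ofFinite _
  obtain ⟨L, -, hL⟩ := exists_localData_inf N
  have hpos : 0 < P.ord (jgen N)⁻¹ := by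
    rw [Place.ord_inv]
    omega
  obtain ⟨x, hx⟩ := L.exists_rel_of_place (frac_evF N) P hpos
  have h1 := hx (jF N d)
  rw [← evF_X_eq_jF, hL x (MvPolynomial.X d)] at h1
  have hord := order_PhiInf_X_neg N x d
  have hs : (0 : ℤ) < L.s := by exact_mod_cast L.s_pos
  have h2 : (coeffMap iota (PhiInf N x (MvPolynomial.X d))).order * P.ord (jgen N)⁻¹ < 0 :=
    mul_neg_of_neg_of_pos hord hpos
  rw [h1] at h2
  by_contra hcon
  push Not at hcon
  rw [evF_X_eq_jF] at h2
  exact absurd h2 (not_lt.mpr (mul_nonneg hs.le hcon))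

/-- The order of the Laurent series attached to the Taylor series of a holomorphic function. -/
theorem order_ofPowerSeries_taylorAt (τ₀ : ℍ) {g : ℍ → ℂ} (hg : MDiff g)
    (hne : taylorAt τ₀ g ≠ 0) :
    ((HahnSeries.ofPowerSeries ℤ ℂ (taylorAt τ₀ g)).order : ℤ)
      = ((analyticOrderAt (g ∘ ofComplex) (τ₀ : ℂ)).toNat : ℤ) := by
  rw [order_ofPowerSeries hne, order_taylorAt τ₀ hg]

theorem ofPowerSeries_ne_zero_iff (p : PowerSeries ℂ) :
    HahnSeries.ofPowerSeries ℤ ℂ p ≠ 0 ↔ p ≠ 0 := by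
  constructor
  · rintro h rfl
    exact h (map_zero _)
  · intro h h0
    exact h (HahnSeries.ofPowerSeries_injective (by rw [h0, map_zero]))

/-- The translate of `j_1 - c` is `J - ι c`. -/
theorem transl_X_one_sub_C (N : ℕ) [NeZero N] (x : XX N) (c : Kbar) :
    transl N x (MvPolynomial.X (oneDiv N) - MvPolynomial.C c) = fun τ => Jfun τ - iota c := by
  have h : transl N x (MvPolynomial.X (oneDiv N) - MvPolynomial.C c)
      = transl N x (MvPolynomial.X (oneDiv N)) - transl N x (MvPolynomial.C c) :=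
    map_sub (translHom N x) _ _
  rw [h, transl_X_one, transl_C]
  rfl

/-- The local degree `s` of the landed local data at the center `c` is the ramification index of
`J` over `ι c`. -/
theorem localData_s_eq (N : ℕ) [NeZero N] [Fintype (XX N)] (c : Kbar)
    (L : LocalData Kbar (FF N) (XX N) (evF N).range (jgen N - algebraMap Kbar (FF N) c))
    (hL : ∀ (x : XX N) (P : MvPolynomial (N.divisors) Kbar),
      L.φ x (evF N P) = HahnSeries.ofPowerSeries ℤ ℂ (taylorAt (centerPt c) (transl N x P))) :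
    (L.s : ℤ) = (H64.ramJ (iota c) : ℤ) := by
  have x₀ : XX N := QuotientGroup.mk 1
  have hπ := L.order_π x₀
  have hs : (0 : ℤ) < L.s := by exact_mod_cast L.s_pos
  have hj : jgen N - algebraMap Kbar (FF N) c
      = evF N (MvPolynomial.X (oneDiv N) - MvPolynomial.C c) := jF_sub_eq_evF N (oneDiv N) c
  have hφ : L.φ x₀ (jgen N - algebraMap Kbar (FF N) c)
      = HahnSeries.ofPowerSeries ℤ ℂ (taylorAt (centerPt c) (fun τ : ℍ => Jfun τ - iota c)) := by
    rw [← transl_X_one_sub_C N x₀ c]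
    exact (congrArg (L.φ x₀) hj).trans (hL x₀ _)
  rw [hφ] at hπ
  have hmd : MDiff (fun τ : ℍ => Jfun τ - iota c) := by
    rw [← transl_X_one_sub_C N x₀ c]
    exact mdiff_transl N x₀ _
  have hne : taylorAt (centerPt c) (fun τ : ℍ => Jfun τ - iota c) ≠ 0 := by
    intro h0
    rw [h0, map_zero, HahnSeries.order_zero] at hπ
    omega
  rw [order_ofPowerSeries_taylorAt (centerPt c) hmd hne] at hπ
  have hfun : ((fun τ : ℍ => Jfun τ - iota c) ∘ ofComplex)
      = fun z : ℂ => Jfun (ofComplex z) - Jfun (centerPt c) := by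
    funext z
    simp only [Function.comp_apply, Jfun_centerPt]
  rw [hfun, H64.analyticOrderAt_Jfun_sub (centerPt c), Jfun_centerPt] at hπ
  rw [← hπ]
  simp

/-- The analytic order at `τ_c` of a translate of `j_d - c'` that vanishes there is the
ramification index of `J` over `ι c'`. -/
theorem analyticOrderAt_transl_X_sub_C (N : ℕ) [NeZero N] (x : XX N) (d : N.divisors)
    (c' : Kbar) (τ₀ : ℍ)
    (hne : analyticOrderAt
      (transl N x (MvPolynomial.X d - MvPolynomial.C c') ∘ ofComplex) (τ₀ : ℂ) ≠ 0) :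
    analyticOrderAt (transl N x (MvPolynomial.X d - MvPolynomial.C c') ∘ ofComplex) (τ₀ : ℂ)
      = (H64.ramJ (iota c') : ℕ∞) := by
  obtain ⟨A, B, D, hA, hD, -, -, h⟩ := exists_affine_transl N x d
  have htr : transl N x (MvPolynomial.X d - MvPolynomial.C c')
      = fun τ : ℍ => Jfun (ofComplex (((A : ℂ) * τ + B) / D)) - iota c' := by
    have h1 : transl N x (MvPolynomial.X d - MvPolynomial.C c')
        = transl N x (MvPolynomial.X d) - transl N x (MvPolynomial.C c') :=
      map_sub (translHom N x) _ _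
    rw [h1, transl_C]
    funext τ
    rw [Pi.sub_apply, h τ]
  have hmd : MDiff (transl N x (MvPolynomial.X d - MvPolynomial.C c')) := mdiff_transl N x _
  rw [htr] at hne hmd ⊢
  have hA' : (0 : ℝ) < A := by exact_mod_cast hA
  have hD' : (0 : ℝ) < D := by exact_mod_cast hD
  have hDc : (D : ℂ) ≠ 0 := by exact_mod_cast hD.ne'
  have hAc : (A : ℂ) ≠ 0 := by exact_mod_cast hA.ne'
  set aff : ℂ → ℂ := fun z => ((A : ℂ) * z + B) / D with haff
  set hh : ℂ → ℂ := fun w => Jfun (ofComplex w) - iota c' with hhh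
  have him : 0 < (aff (τ₀ : ℂ)).im := by
    have h1 : aff (τ₀ : ℂ) = ((A / D : ℝ) : ℂ) * (τ₀ : ℂ) + ((B / D : ℝ) : ℂ) := by
      simp only [haff]
      push_cast
      field_simp
    rw [h1]
    simp only [Complex.add_im, Complex.mul_im, Complex.ofReal_re, Complex.ofReal_im, zero_mul,
      add_zero]
    exact mul_pos (div_pos hA' hD') τ₀.im_pos
  -- the function is `hh ∘ aff` near `τ₀`
  have hev : ((fun τ : ℍ => Jfun (ofComplex (((A : ℂ) * τ + B) / D)) - iota c') ∘ ofComplex)
      =ᶠ[𝓝 (τ₀ : ℂ)] (hh ∘ aff) := by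
    filter_upwards [eventuallyEq_coe_comp_ofComplex τ₀.im_pos] with z hz
    simp only [Function.comp_apply, id_eq] at hz
    simp only [Function.comp_apply, haff, hhh, hz]
  have haffan : AnalyticAt ℂ aff (τ₀ : ℂ) := by
    simp only [haff]
    fun_prop
  have hderiv : deriv aff (τ₀ : ℂ) ≠ 0 := by
    have hd : HasDerivAt aff ((A : ℂ) / D) (τ₀ : ℂ) := by
      have h1 : HasDerivAt (fun z : ℂ => (A : ℂ) * z + B) (A : ℂ) (τ₀ : ℂ) := by
        simpa using ((hasDerivAt_id (τ₀ : ℂ)).const_mul (A : ℂ)).add_const (B : ℂ)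
      exact h1.div_const (D : ℂ)
    rw [hd.deriv]
    exact div_ne_zero hAc hDc
  rw [analyticOrderAt_congr hev, analyticOrderAt_comp_of_deriv_ne_zero haffan hderiv] at hne ⊢
  -- the point `τ' = aff τ₀` of the upper half plane
  set τ' : ℍ := ⟨aff (τ₀ : ℂ), him⟩ with hτ'
  have hcoe : ((τ' : ℍ) : ℂ) = aff (τ₀ : ℂ) := rfl
  have hof : ofComplex (aff (τ₀ : ℂ)) = τ' := ofComplex_apply_of_im_pos him
  have han : AnalyticAt ℂ hh (aff (τ₀ : ℂ)) := by
    have h1 := H64.analyticAt_comp_ofComplex Jfun_mdiff τ'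
    rw [hcoe] at h1
    exact h1.sub analyticAt_const
  have hval : Jfun τ' = iota c' := by
    by_contra hcon
    apply hne
    rw [han.analyticOrderAt_eq_zero]
    simp only [hhh, hof]
    exact sub_ne_zero.mpr hcon
  have hfun : hh = fun w : ℂ => Jfun (ofComplex w) - Jfun τ' := by
    simp only [hhh, hval]
  rw [hfun, ← hcoe, H64.analyticOrderAt_Jfun_sub τ', hval]

theorem ramJ_iota_zero : H64.ramJ (iota (0 : Kbar)) = 3 := by
  rw [map_zero, H64.ramJ_zero]

theorem ramJ_iota_1728 : H64.ramJ (iota (1728 : Kbar)) = 2 := by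
  rw [map_ofNat, H64.ramJ_1728]

theorem ramJ_iota_of_ne {c : Kbar} (h0 : c ≠ 0) (h1 : c ≠ 1728) : H64.ramJ (iota c) = 1 := by
  apply H64.ramJ_of_ne
  · exact (map_ne_zero iota).mpr h0
  · intro h
    apply h1
    apply iota.injective
    rw [h, map_ofNat]

/-- The ramification index of `j = j_1` at a finite place divides the ramification index of `J`. -/
theorem ord_jgen_sub_dvd_ramJ (N : ℕ) [NeZero N] (P : Place Kbar (FF N)) (c : Kbar)
    (hpos : 0 < P.ord (jgen N - algebraMap Kbar (FF N) c)) :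
    P.ord (jgen N - algebraMap Kbar (FF N) c) ∣ (H64.ramJ (iota c) : ℤ) := by
  by_cases h0 : c = 0
  · subst h0
    rw [ramJ_iota_zero]
    have h := ord_j_dvd_three N P (by simpa using hpos)
    simpa using h
  · by_cases h1 : c = 1728
    · subst h1
      rw [ramJ_iota_1728]
      exact ord_j_sub_dvd_two N P hpos
    · rw [ord_j_sub_eq_one N P c h0 h1 hpos]
      exact one_dvd _

/-- **Branch data of `F_N / ℚ̄(j_d)`**, uniform form: at a place where `j_d - c'` vanishes, its
order divides the ramification index `ramJ (ι c') ∈ {1, 2, 3}` of `J` over `ι c'`. -/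
theorem ord_jF_sub_dvd_ramJ (N : ℕ) [NeZero N] (d : N.divisors) (P : Place Kbar (FF N))
    (c' : Kbar) (hpos : 0 < P.ord (jF N d - algebraMap Kbar (FF N) c')) :
    P.ord (jF N d - algebraMap Kbar (FF N) c') ∣ (H64.ramJ (iota c') : ℤ) := by
  classical
  have : Fintype (XX N) := Fintype.ofFinite _
  -- algebraicity over `K(j)`
  have halg : Algebra.IsAlgebraic (IntermediateField.adjoin Kbar {jgen N}) (FF N) := by
    obtain ⟨L0, -, -⟩ := exists_localData_fin N 0
    have h := L0.isAlgebraic (frac_evF N)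
    have hj0 : jgen N - algebraMap Kbar (FF N) 0 = jgen N := by simp
    exact hj0 ▸ h
  -- `P` is a finite place of `j`
  rcases exists_center (jgen N) P with hneg | ⟨c, hc⟩
  · exact absurd hpos (not_center_of_pole (jF N d) P (ord_jF_neg_of_ord_jgen_neg N d P hneg) c')
  obtain ⟨L, -, hL⟩ := exists_localData_fin N c
  obtain ⟨x, hx⟩ := L.exists_rel_of_place (frac_evF N) P hc
  have hs := localData_s_eq N c L hL
  have he := ord_jgen_sub_dvd_ramJ N P c hc
  have h1 := hx (jF N d - algebraMap Kbar (FF N) c')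
  have hf0 : jF N d - algebraMap Kbar (FF N) c' ≠ 0 := H94.ne_zero_of_ord_pos P hpos
  have hφ0 : L.φ x (jF N d - algebraMap Kbar (FF N) c') ≠ 0 :=
    (map_ne_zero (L.φ x)).mpr hf0
  have hφ : L.φ x (jF N d - algebraMap Kbar (FF N) c')
      = HahnSeries.ofPowerSeries ℤ ℂ (taylorAt (centerPt c)
          (transl N x (MvPolynomial.X d - MvPolynomial.C c'))) :=
    (congrArg (L.φ x) (jF_sub_eq_evF N d c')).trans (hL x _)
  rw [hφ] at h1 hφ0
  have hp0 := (ofPowerSeries_ne_zero_iff _).mp hφ0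
  rw [order_ofPowerSeries_taylorAt (centerPt c) (mdiff_transl N x _) hp0, hs] at h1
  -- positivity of the analytic order
  have hram : (0 : ℤ) < (H64.ramJ (iota c) : ℤ) := by exact_mod_cast H64.ramJ_pos (iota c)
  have hn0 : analyticOrderAt
      (transl N x (MvPolynomial.X d - MvPolynomial.C c') ∘ ofComplex) ((centerPt c : ℍ) : ℂ) ≠ 0 := by
    intro h0
    rw [h0] at h1
    simp only [ENat.toNat_zero, Nat.cast_zero, zero_mul] at h1
    have : 0 < (H64.ramJ (iota c) : ℤ) * P.ord (jF N d - algebraMap Kbar (FF N) c') :=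
      mul_pos hram hpos
    omega
  rw [analyticOrderAt_transl_X_sub_C N x d c' (centerPt c) hn0] at h1
  simp only [ENat.toNat_natCast] at h1
  -- `ramJ (ι c') * e = ramJ (ι c) * ord`, `e ∣ ramJ (ι c)`
  obtain ⟨k, hk⟩ := he
  rw [hk] at h1
  have hne : P.ord (jgen N - algebraMap Kbar (FF N) c) ≠ 0 := hc.ne'
  have h2 : (H64.ramJ (iota c') : ℤ) = k * P.ord (jF N d - algebraMap Kbar (FF N) c') := by
    apply mul_right_cancel₀ hne
    rw [h1]
    ring
  exact ⟨k, by rw [h2]; ring⟩

/-- **Branch data of `F_N / ℚ̄(j_d)`** for every generator `j_d = j(q^d)`, `d ∣ N`: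
unramified outside `{0, 1728, ∞}`, index dividing `3` over `0` and dividing `2` over `1728`. -/
theorem ord_jF_sub (N : ℕ) [NeZero N] (d : N.divisors) (P : Place Kbar (FF N)) (c : Kbar)
    (hpos : 0 < P.ord (jF N d - algebraMap Kbar (FF N) c)) :
    (c ≠ 0 → c ≠ 1728 → P.ord (jF N d - algebraMap Kbar (FF N) c) = 1) ∧
    (c = 0 → P.ord (jF N d - algebraMap Kbar (FF N) c) ∣ 3) ∧
    (c = 1728 → P.ord (jF N d - algebraMap Kbar (FF N) c) ∣ 2) := by
  have h := ord_jF_sub_dvd_ramJ N d P c hpos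
  refine ⟨fun h0 h1 => ?_, fun h0 => ?_, fun h1 => ?_⟩
  · rw [ramJ_iota_of_ne h0 h1] at h
    exact Int.eq_one_of_dvd_one hpos.le (by simpa using h)
  · subst h0
    rw [ramJ_iota_zero] at h
    exact_mod_cast h
  · subst h1
    rw [ramJ_iota_1728] at h
    exact_mod_cast h

theorem ord_jF_sub_eq_one (N : ℕ) [NeZero N] (d : N.divisors) (P : Place Kbar (FF N)) (c : Kbar)
    (hc0 : c ≠ 0) (hc1 : c ≠ 1728) (hpos : 0 < P.ord (jF N d - algebraMap Kbar (FF N) c)) :
    P.ord (jF N d - algebraMap Kbar (FF N) c) = 1 :=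
  (ord_jF_sub N d P c hpos).1 hc0 hc1

theorem ord_jF_dvd_three (N : ℕ) [NeZero N] (d : N.divisors) (P : Place Kbar (FF N))
    (hpos : 0 < P.ord (jF N d)) : P.ord (jF N d) ∣ 3 := by
  have h0 : jF N d = jF N d - algebraMap Kbar (FF N) 0 := by simp
  rw [h0] at hpos ⊢
  exact (ord_jF_sub N d P 0 hpos).2.1 rfl

theorem ord_jF_sub_dvd_two (N : ℕ) [NeZero N] (d : N.divisors) (P : Place Kbar (FF N))
    (hpos : 0 < P.ord (jF N d - algebraMap Kbar (FF N) 1728)) :
    P.ord (jF N d - algebraMap Kbar (FF N) 1728) ∣ 2 :=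
  (ord_jF_sub N d P 1728 hpos).2.2 rfl

end Fermat.Agent.S18.H88
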