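/-
S18 / wave 4, core 2, sub-leaf (N-PL) of K2-N `exists_descent` (helper88):
**adjoining a separable algebraic constant does not ramify a place.**

Let `P` be a place of `F`, `E ⊆ F` a subfield, `K₀ ⊆ E` a subfield of constants (`K₀ ⊆ O_P`),
`t ∈ E` with `ord_P t = e > 0` such that `e ∣ ord_P f` for every `f ∈ Eˣ`
(i.e. `t` is a uniformiser of `O_P ∩ E`).  If `α ∈ F` is integral over `K₀` with separable
minimal polynomial, then `e ∣ ord_P z` for every `z ∈ E(α)ˣ`.

Elementary proof (no Kummer–Dedekind, no completions):  let `V = O_P ∩ E`, `φ` the minimal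
polynomial of `α` over `K₀`, `γ` a generator of the kernel of `κ(V)[T] → κ(P)`, `T ↦ ᾱ`; then
`φ̄ = γ δ` with `γ, δ` coprime (`φ̄` is separable).  Lift `γ, δ` to `G, D ∈ V[T]`; `ε := D(α)` is a
`P`-unit and for every `s = p(α)`, `p ∈ V[T]`, with `ord_P s > 0` one has `ε s = t s₁`,
`s₁ = r(α)`, `r ∈ V[T]`.  Induction on `ord_P s`.
-/
import Mathlib
import Fermat.Prelude.Def_AlgebraicCurve_DivisorClassGroup
import Fermat.Agent.S24.H52.AddVal

set_option autoImplicit false

open AlgebraicCurve Polynomial IntermediateField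

noncomputable section

namespace Fermat.Agent.S18.H88

open Fermat.Agent.S24

section

variable {K K₀ E F : Type*} [Field K] [Field K₀] [Field E] [Field F]
  [Algebra K F] [Algebra K₀ E] [Algebra E F] [Algebra K₀ F] [IsScalarTower K₀ E F]

/-- The valuation ring `O_P ∩ E`. -/
abbrev ringBelow (P : Place K F) (E : Type*) [Field E] [Algebra E F] : ValuationSubring E :=
  P.toValuationSubring.comap (algebraMap E F)

/-- `O_P ∩ E → O_P`. -/
def ringBelowHom (P : Place K F) (E : Type*) [Field E] [Algebra E F] :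
    ↥(ringBelow P E) →+* ↥P.toValuationSubring where
  toFun v := ⟨algebraMap E F v, ValuationSubring.mem_comap.mp v.2⟩
  map_one' := Subtype.ext (by simp)
  map_mul' a b := Subtype.ext (by simp)
  map_zero' := Subtype.ext (by simp)
  map_add' a b := Subtype.ext (by simp)

@[simp] theorem coe_ringBelowHom (P : Place K F) (v : ↥(ringBelow P E)) :
    ((ringBelowHom P E v : ↥P.toValuationSubring) : F) = algebraMap E F (v : E) := rfl

instance isLocalHom_ringBelowHom (P : Place K F) : IsLocalHom (ringBelowHom P E) where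
  map_nonunit a ha := by
    obtain ⟨b, hb⟩ := ha.exists_right_inv
    have hb' : algebraMap E F (a : E) * (b : F) = 1 := by
      have := congrArg (Subtype.val) hb
      simpa using this
    have ha0 : (a : E) ≠ 0 := by
      intro h
      rw [h, map_zero, zero_mul] at hb'
      exact zero_ne_one hb'
    have hbinv : (b : F) = algebraMap E F ((a : E)⁻¹) := by
      rw [map_inv₀]
      exact eq_inv_of_mul_eq_one_right hb'
    have hmem : (a : E)⁻¹ ∈ ringBelow P E := by
      rw [ValuationSubring.mem_comap, ← hbinv]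
      exact b.2
    refine IsUnit.of_mul_eq_one ⟨_, hmem⟩ ?_
    ext
    show (a : E) * (a : E)⁻¹ = 1
    exact mul_inv_cancel₀ ha0

/-- A nonzero element of `O_P` is a unit iff its order is `0`. -/
theorem isUnit_iff_ord_eq_zero (P : Place K F) (w : ↥P.toValuationSubring) (hw : (w : F) ≠ 0) :
    IsUnit w ↔ P.ord (w : F) = 0 := by
  constructor
  · intro h
    obtain ⟨u, rfl⟩ := h
    exact P.ord_coe_unit u
  · intro h
    have hinv : (w : F)⁻¹ ∈ P.toValuationSubring := by
      rw [H52.mem_iff_ord_nonneg P (inv_ne_zero hw), P.ord_inv, h]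
      simp
    refine IsUnit.of_mul_eq_one ⟨_, hinv⟩ ?_
    ext
    show (w : F) * (w : F)⁻¹ = 1
    exact mul_inv_cancel₀ hw

/-- **Adjoining a separable algebraic constant does not ramify.** -/
theorem dvd_ord_of_mem_adjoin (P : Place K F)
    (hK₀ : ∀ a : K₀, algebraMap K₀ F a ∈ P.toValuationSubring)
    (t : E) (e : ℤ) (he : 0 < e) (ht : P.ord (algebraMap E F t) = e)
    (hE : ∀ f : E, f ≠ 0 → e ∣ P.ord (algebraMap E F f))
    (α : F) (hα : IsIntegral K₀ α) (hsep : (minpoly K₀ α).Separable) :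
    ∀ z ∈ IntermediateField.adjoin E {α}, z ≠ 0 → e ∣ P.ord z := by
  classical
  set W : ValuationSubring F := P.toValuationSubring with hW
  set V : ValuationSubring E := ringBelow P E with hV
  set ι : ↥V →+* ↥W := ringBelowHom P E with hι
  have hinj : Function.Injective (algebraMap E F) := (algebraMap E F).injective
  -- `t ∈ V`
  have ht0 : t ≠ 0 := by
    rintro rfl
    rw [map_zero, P.ord_zero] at ht
    omega
  have htF0 : algebraMap E F t ≠ 0 := (_root_.map_ne_zero _).mpr ht0
  have htV : t ∈ V := by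
    rw [hV, ValuationSubring.mem_comap, H52.mem_iff_ord_nonneg P htF0, ht]
    exact he.le
  set tV : ↥V := ⟨t, htV⟩ with htV'
  -- `α ∈ W`
  have hαW : α ∈ W := by
    have h1 : IsIntegral ↥W α := by
      obtain ⟨q, hq, hq0⟩ := hα
      let κ' : K₀ →+* ↥W := (algebraMap K₀ F).codRestrict W.toSubring hK₀
      refine ⟨q.map κ', hq.map _, ?_⟩
      rw [Polynomial.eval₂_map]
      exact hq0
    obtain ⟨y, hy⟩ := IsIntegrallyClosed.algebraMap_eq_of_integral (R := ↥W) (K := F) h1
    rw [← hy]
    exact y.2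
  set αW : ↥W := ⟨α, hαW⟩ with hαW'
  -- the maximal ideal of `V` is generated by `t`
  have hdvd : ∀ c : ↥V, c ∈ IsLocalRing.maximalIdeal ↥V → tV ∣ c := by
    intro c hc
    by_cases hc0 : c = 0
    · rw [hc0]; exact dvd_zero _
    have hcE : (c : E) ≠ 0 := fun h => hc0 (Subtype.ext h)
    have hcF : algebraMap E F (c : E) ≠ 0 := (_root_.map_ne_zero _).mpr hcE
    have hnu : ¬ IsUnit (ι c) := fun h =>
      (IsLocalRing.mem_maximalIdeal _).mp hc ((isUnit_map_iff ι c).mp h)
    have hpos : 0 < P.ord (algebraMap E F (c : E)) := by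
      have h1 : 0 ≤ P.ord (algebraMap E F (c : E)) := H52.ord_nonneg_of_mem P (ι c).2
      rcases h1.lt_or_eq with h2 | h2
      · exact h2
      · exact absurd ((isUnit_iff_ord_eq_zero P (ι c) hcF).mpr h2.symm) hnu
    obtain ⟨m, hm⟩ := hE (c : E) hcE
    have hm1 : 1 ≤ m := by
      by_contra hcon
      have : e * m ≤ 0 := mul_nonpos_of_nonneg_of_nonpos he.le (by omega)
      omega
    have hmem : (c : E) / t ∈ V := by
      have h1 : algebraMap E F ((c : E) / t) ∈ P.toValuationSubring := by
        rw [map_div₀, H52.mem_iff_ord_nonneg P (div_ne_zero hcF htF0),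
          (H52.isAddVal_ord P).map_div hcF htF0, ht, hm]
        nlinarith
      exact ValuationSubring.mem_comap.mpr h1
    refine ⟨⟨(c : E) / t, hmem⟩, Subtype.ext ?_⟩
    show (c : E) = t * ((c : E) / t)
    field_simp
  -- the ring homomorphisms
  set Ψ : (↥V)[X] →+* ↥W := Polynomial.eval₂RingHom ι αW with hΨ
  set red : (↥V)[X] →+* (IsLocalRing.ResidueField ↥V)[X] :=
    Polynomial.mapRingHom (IsLocalRing.residue ↥V) with hred
  set ιbar : IsLocalRing.ResidueField ↥V →+* IsLocalRing.ResidueField ↥W :=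
    IsLocalRing.ResidueField.map ι with hιbar
  set ev : (IsLocalRing.ResidueField ↥V)[X] →+* IsLocalRing.ResidueField ↥W :=
    Polynomial.eval₂RingHom ιbar (IsLocalRing.residue ↥W αW) with hev
  have factA : ∀ p : (↥V)[X], IsLocalRing.residue ↥W (Ψ p) = ev (red p) := by
    intro p
    have h : (IsLocalRing.residue ↥W).comp Ψ = ev.comp red := by
      apply Polynomial.ringHom_ext
      · intro a
        simp only [RingHom.comp_apply, hΨ, hred, hev, Polynomial.coe_eval₂RingHom,
          Polynomial.eval₂_C, Polynomial.coe_mapRingHom, Polynomial.map_C, hιbar]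
        rfl
      · simp only [RingHom.comp_apply, hΨ, hred, hev, Polynomial.coe_eval₂RingHom,
          Polynomial.eval₂_X, Polynomial.coe_mapRingHom, Polynomial.map_X]
    exact congrArg (fun f => f p) h
  have factB : ∀ p : (↥V)[X], red p = 0 → ∃ r : (↥V)[X], p = Polynomial.C tV * r := by
    intro p hp
    have h : Polynomial.C tV ∣ p := by
      rw [Polynomial.C_dvd_iff_dvd_coeff]
      intro i
      apply hdvd
      rw [← IsLocalRing.residue_eq_zero_iff]
      have := congrArg (fun q => q.coeff i) hp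
      simpa [hred] using this
    exact h
  have hsurj : Function.Surjective red :=
    Polynomial.map_surjective _ IsLocalRing.residue_surjective
  -- the minimal polynomial over `V`
  set κ : K₀ →+* ↥V := (algebraMap K₀ E).codRestrict V.toSubring (fun a => by
    show algebraMap K₀ E a ∈ V
    rw [hV, ValuationSubring.mem_comap, ← IsScalarTower.algebraMap_apply]
    exact hK₀ a) with hκ
  set φV : (↥V)[X] := (minpoly K₀ α).map κ with hφV
  have hΨφ : Ψ φV = 0 := by
    apply Subtype.ext
    have h1 : ((Ψ φV : ↥W) : F) = Polynomial.eval₂ (W.subtype.comp ι) α φV := by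
      rw [hΨ, Polynomial.coe_eval₂RingHom]
      exact Polynomial.hom_eval₂ φV ι W.subtype αW
    rw [h1, hφV, Polynomial.eval₂_map]
    have h2 : (W.subtype.comp ι).comp κ = algebraMap K₀ F := by
      ext a
      show algebraMap E F (algebraMap K₀ E a) = algebraMap K₀ F a
      rw [← IsScalarTower.algebraMap_apply]
    rw [h2]
    exact minpoly.aeval K₀ α
  -- the kernel of `ev`
  set I : Ideal (IsLocalRing.ResidueField ↥V)[X] := RingHom.ker ev with hI
  set γ := Submodule.IsPrincipal.generator I with hγ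
  have hγmem : ev γ = 0 := (RingHom.mem_ker).mp (Submodule.IsPrincipal.generator_mem I)
  have hγdvd : ∀ q, ev q = 0 → γ ∣ q := fun q hq =>
    (Submodule.IsPrincipal.mem_iff_generator_dvd I).mp ((RingHom.mem_ker).mpr hq)
  have hφbar : ev (red φV) = 0 := by rw [← factA, hΨφ, map_zero]
  obtain ⟨δ, hδ⟩ := hγdvd _ hφbar
  have hsepbar : (red φV).Separable := by
    rw [hred, Polynomial.coe_mapRingHom, hφV, Polynomial.map_map]
    exact hsep.map
  have hcop : IsCoprime γ δ := by
    rw [hδ] at hsepbar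
    exact hsepbar.isCoprime
  obtain ⟨a, b, hab⟩ := hcop
  have hevδ : ev δ ≠ 0 := by
    intro h0
    have := congrArg ev hab
    rw [map_add, map_mul, map_mul, hγmem, h0, mul_zero, mul_zero, add_zero, map_one] at this
    exact zero_ne_one this
  obtain ⟨G, hG⟩ := hsurj γ
  obtain ⟨D, hD⟩ := hsurj δ
  obtain ⟨R₂, hR₂⟩ := factB (G * D - φV) (by rw [map_sub, map_mul, hG, hD, hδ, sub_self])
  -- `ε = D(α)` is a unit
  have hεunit : IsUnit (Ψ D) := by
    rw [← IsLocalRing.residue_ne_zero_iff_isUnit, factA, hD]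
    exact hevδ
  have hε0 : ((Ψ D : ↥W) : F) ≠ 0 := by
    intro h
    have : (Ψ D : ↥W) = 0 := Subtype.ext h
    rw [this] at hεunit
    exact not_isUnit_zero hεunit
  have hεord : P.ord ((Ψ D : ↥W) : F) = 0 := (isUnit_iff_ord_eq_zero P _ hε0).mp hεunit
  -- the key step
  have key : ∀ p : (↥V)[X], ¬ IsUnit (Ψ p) → ∃ r : (↥V)[X], Ψ D * Ψ p = ι tV * Ψ r := by
    intro p hp
    have h0 : ev (red p) = 0 := by
      rw [← factA]
      by_contra hcon
      exact hp ((IsLocalRing.residue_ne_zero_iff_isUnit _).mp hcon)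
    obtain ⟨qbar, hq⟩ := hγdvd _ h0
    obtain ⟨Q, hQ⟩ := hsurj qbar
    obtain ⟨R₃, hR₃⟩ := factB (p - G * Q) (by rw [map_sub, map_mul, hG, hQ, hq, sub_self])
    refine ⟨R₂ * Q + D * R₃, ?_⟩
    have hpoly : D * p = φV * Q + Polynomial.C tV * (R₂ * Q + D * R₃) := by
      have e1 : p = G * Q + Polynomial.C tV * R₃ := by rw [← hR₃]; ring
      have e2 : G * D = φV + Polynomial.C tV * R₂ := by rw [← hR₂]; ring
      calc D * p = (G * D) * Q + Polynomial.C tV * (D * R₃) := by rw [e1]; ring
        _ = φV * Q + Polynomial.C tV * (R₂ * Q + D * R₃) := by rw [e2]; ring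
    have := congrArg Ψ hpoly
    rw [map_mul, map_add, map_mul, map_mul, hΨφ, zero_mul, zero_add] at this
    rw [this]
    congr 1
    rw [hΨ, Polynomial.coe_eval₂RingHom, Polynomial.eval₂_C]
  -- induction on the order
  have claim : ∀ n : ℕ, ∀ p : (↥V)[X], ((Ψ p : ↥W) : F) ≠ 0 →
      P.ord ((Ψ p : ↥W) : F) = n → e ∣ (n : ℤ) := by
    intro n
    induction n using Nat.strong_induction_on with
    | _ n ih =>
      intro p hp0 hpn
      by_cases hu : IsUnit (Ψ p)
      · have := (isUnit_iff_ord_eq_zero P _ hp0).mp hu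
        rw [this] at hpn
        rw [← hpn]
        exact dvd_zero _
      · obtain ⟨r, hr⟩ := key p hu
        have hrF : ((Ψ D : ↥W) : F) * ((Ψ p : ↥W) : F)
            = algebraMap E F t * ((Ψ r : ↥W) : F) := congrArg (Subtype.val) hr
        have hr0 : ((Ψ r : ↥W) : F) ≠ 0 := by
          intro h
          rw [h, mul_zero] at hrF
          exact mul_ne_zero hε0 hp0 hrF
        have hord := congrArg P.ord hrF
        rw [P.ord_mul hε0 hp0, P.ord_mul htF0 hr0, hεord, zero_add, hpn, ht] at hord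
        have hrnn : 0 ≤ P.ord ((Ψ r : ↥W) : F) := H52.ord_nonneg_of_mem P (Ψ r).2
        obtain ⟨m, hm⟩ := Int.eq_ofNat_of_zero_le hrnn
        have hmn : m < n := by omega
        have := ih m hmn r hr0 hm
        rw [hord, hm]
        exact dvd_add (dvd_refl e) this
  -- conclusion
  intro z hz hz0
  have hαE : IsIntegral E α := hα.tower_top
  have hzmem : z ∈ (IntermediateField.adjoin E {α}).toSubalgebra := hz
  rw [IntermediateField.adjoin_simple_toSubalgebra_of_isAlgebraic hαE.isAlgebraic,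
    Algebra.adjoin_singleton_eq_range_aeval] at hzmem
  obtain ⟨p₀, hp₀'⟩ := hzmem
  have hp₀ : Polynomial.aeval α p₀ = z := hp₀'
  obtain ⟨bb, hbbM, hbb⟩ := IsLocalization.integerNormalization_spec (nonZeroDivisors ↥V) p₀
  set p' : (↥V)[X] := IsLocalization.integerNormalization (nonZeroDivisors ↥V) p₀ with hp'
  have hb0 : ((bb : ↥V) : E) ≠ 0 := by
    intro h
    exact nonZeroDivisors.ne_zero hbbM (Subtype.ext h)
  have hΨp' : ((Ψ p' : ↥W) : F) = algebraMap E F ((bb : ↥V) : E) * z := by
    have h1 : ((Ψ p' : ↥W) : F) = Polynomial.eval₂ (W.subtype.comp ι) α p' := by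
      rw [hΨ, Polynomial.coe_eval₂RingHom]
      exact Polynomial.hom_eval₂ p' ι W.subtype αW
    have h2 : W.subtype.comp ι = (algebraMap E F).comp (algebraMap ↥V E) := rfl
    rw [h1, h2, ← Polynomial.eval₂_map, hbb, ← hp₀]
    rw [Algebra.smul_def, Polynomial.algebraMap_apply, Polynomial.aeval_def,
      Polynomial.eval₂_mul, Polynomial.eval₂_C]
    rfl
  have hbF0 : algebraMap E F ((bb : ↥V) : E) ≠ 0 := (_root_.map_ne_zero _).mpr hb0
  have hΨ0 : ((Ψ p' : ↥W) : F) ≠ 0 := by
    rw [hΨp']
    exact mul_ne_zero hbF0 hz0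
  have hnn : 0 ≤ P.ord ((Ψ p' : ↥W) : F) := H52.ord_nonneg_of_mem P (Ψ p').2
  obtain ⟨n, hn⟩ := Int.eq_ofNat_of_zero_le hnn
  have h1 := claim n p' hΨ0 hn
  have h2 := hE ((bb : ↥V) : E) hb0
  have h3 := congrArg P.ord hΨp'
  rw [P.ord_mul hbF0 hz0, hn] at h3
  have h4 : P.ord z = (n : ℤ) - P.ord (algebraMap E F ((bb : ↥V) : E)) := by omega
  rw [h4]
  exact dvd_sub h1 h2

end

end Fermat.Agent.S18.H88
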