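/-
S18 / wave 4, core 2, sub-leaf (N-PL) of K2-N `exists_descent` (helper88):
**places of a constant field extension.**

Setting: fields `K₀ ⊆ K` (algebraic, characteristic `0`), `F₀ ⊆ F` with `F = F₀ · K`, `F` finite
over `K(x)`.  Every place `V` of `F₀ / K₀` (= discrete valuation ring of `F₀` containing `K₀`) is
the restriction of a place `P` of `F / K`, and `ord_P = ord_V` on `F₀` (the constant field
extension is unramified): `exists_place_over`.

Consequences in the shapes used by `H19.exists_descent`: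
* `exists_unit_div_pow` (`hdiv`): if `p ∣ ord_P u` for all places `P` of `F / K` then for every
  discrete valuation ring `V ⊇ K₀` of `F₀` there is `t ≠ 0` with `u / t ^ p ∈ Vˣ`.
* (`DSetup.branch`: see `ConstExtBranch.lean`, `branch_of_places`.)
-/
import Fermat.Agent.S18.H88.ConstExtUnram
import Fermat.Agent.S18.H78.ValDVR
import Fermat.Agent.S18.H19.Core2Defs
import Fermat.Agent.S24.Residue

set_option autoImplicit false

open AlgebraicCurve Polynomial IntermediateField

noncomputable section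

namespace Fermat.Agent.S18.H88

open Fermat.Agent.S24

/-- A valuation subring containing a field of constants contains every element integral over
it. -/
theorem mem_valuationSubring_of_isIntegral {K₀ F : Type*} [Field K₀] [Field F] [Algebra K₀ F]
    (W : ValuationSubring F) (hK₀ : ∀ a : K₀, algebraMap K₀ F a ∈ W) {α : F}
    (hα : IsIntegral K₀ α) : α ∈ W := by
  have h1 : IsIntegral ↥W α := by
    obtain ⟨q, hq, hq0⟩ := hα
    let κ' : K₀ →+* ↥W := (algebraMap K₀ F).codRestrict W.toSubring hK₀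
    refine ⟨q.map κ', hq.map _, ?_⟩
    rw [Polynomial.eval₂_map]
    exact hq0
  obtain ⟨y, hy⟩ := IsIntegrallyClosed.algebraMap_eq_of_integral (R := ↥W) (K := F) h1
  rw [← hy]
  exact y.2

section

variable {K₀ K F₀ F : Type*} [Field K₀] [Field K] [Field F₀] [Field F]
  [Algebra K₀ K] [Algebra K₀ F₀] [Algebra K F] [Algebra F₀ F] [Algebra K₀ F]
  [IsScalarTower K₀ K F] [IsScalarTower K₀ F₀ F]

/-- The additive valuation `f ↦ ord_P f` on a subfield. -/
theorem isAddVal_ord_comp (P : Place K F) :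
    H52.IsAddVal (fun f : F₀ => P.ord (algebraMap F₀ F f)) where
  map_one := by simp
  map_mul := by
    intro f g hf hg
    rw [map_mul]
    exact P.ord_mul ((_root_.map_ne_zero _).mpr hf) ((_root_.map_ne_zero _).mpr hg)
  map_add := by
    intro f g hf hg hfg
    rw [map_add]
    exact (H52.isAddVal_ord P).map_add ((_root_.map_ne_zero _).mpr hf)
      ((_root_.map_ne_zero _).mpr hg) (by rw [← map_add]; exact (_root_.map_ne_zero _).mpr hfg)

/-- **Places of a constant field extension**: every place of `F₀ / K₀` is the restriction of a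
place of `F / K`, with ramification index `1`. -/
theorem exists_place_over [CharZero K₀] [Algebra.IsAlgebraic K₀ K]
    (x : F) [FiniteDimensional K⟮x⟯ F]
    (hgen : IntermediateField.adjoin F₀ (Set.range (algebraMap K F)) = ⊤)
    (V : Place K₀ F₀) :
    ∃ P : Place K F,
      (∀ f : F₀, algebraMap F₀ F f ∈ P.toValuationSubring ↔ f ∈ V.toValuationSubring) ∧
      ∀ f : F₀, P.ord (algebraMap F₀ F f) = V.ord f := by
  classical
  -- a uniformiser of `V`
  obtain ⟨π, hπ⟩ := IsDiscreteValuationRing.exists_irreducible V.toValuationSubring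
  have hπ0 : (π : F₀) ≠ 0 := by
    intro h
    exact hπ.ne_zero (Subtype.ext h)
  have hπF0 : algebraMap F₀ F (π : F₀) ≠ 0 := (_root_.map_ne_zero _).mpr hπ0
  -- a valuation subring of `F` dominating `V`
  obtain ⟨B, hle, hloc⟩ := LocalSubring.exists_le_valuationSubring
    (LocalSubring.map (algebraMap F₀ F) V.toValuationSubring.toLocalSubring)
  have hsub : ∀ f : F₀, f ∈ V.toValuationSubring → algebraMap F₀ F f ∈ B := fun f hf =>
    hle (Subring.mem_map.mpr ⟨f, hf, rfl⟩)
  have hπB : (algebraMap F₀ F (π : F₀))⁻¹ ∉ B := by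
    intro hinv
    -- then the image of `π` is a unit of `B`, hence of the image of `V`
    let a : ↥(LocalSubring.map (algebraMap F₀ F) V.toValuationSubring.toLocalSubring).toSubring :=
      ⟨algebraMap F₀ F (π : F₀), Subring.mem_map.mpr ⟨π, π.2, rfl⟩⟩
    have hu : IsUnit (Subring.inclusion hle a) := by
      refine IsUnit.of_mul_eq_one ⟨(algebraMap F₀ F (π : F₀))⁻¹, hinv⟩ ?_
      apply Subtype.ext
      show algebraMap F₀ F (π : F₀) * (algebraMap F₀ F (π : F₀))⁻¹ = 1
      exact mul_inv_cancel₀ hπF0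
    have hua : IsUnit a := hloc.map_nonunit a hu
    obtain ⟨b, hb⟩ := hua.exists_right_inv
    obtain ⟨g, hg, hgb⟩ := Subring.mem_map.mp b.2
    have h1 : algebraMap F₀ F ((π : F₀) * g) = 1 := by
      rw [map_mul, hgb]
      exact congrArg Subtype.val hb
    have h2 : (π : F₀) * g = 1 := (algebraMap F₀ F).injective (by rw [h1, map_one])
    exact hπ.not_isUnit (IsUnit.of_mul_eq_one ⟨g, hg⟩ (Subtype.ext h2))
  -- `K ⊆ B`
  have hK₀B : ∀ c : K₀, algebraMap K₀ F c ∈ B := by
    intro c
    rw [IsScalarTower.algebraMap_apply K₀ F₀ F]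
    exact hsub _ (V.algebraMap_mem' c)
  have hKB : ∀ a : K, algebraMap K F a ∈ B := by
    intro a
    have h1 : IsIntegral K₀ a := (Algebra.IsAlgebraic.isAlgebraic a).isIntegral
    have h2 : IsIntegral K₀ (algebraMap K F a) := h1.map (IsScalarTower.toAlgHom K₀ K F)
    exact mem_valuationSubring_of_isIntegral B hK₀B h2
  have hBtop : B ≠ ⊤ := by
    intro h
    exact hπB (h ▸ ValuationSubring.mem_top _)
  have hpid : IsPrincipalIdealRing B :=
    H78.isPrincipalIdealRing_of_finiteDimensional x B hKB hBtop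
  obtain ⟨P, hPB⟩ : ∃ P : Place K F, P.toValuationSubring = B :=
    ⟨⟨B, hKB, hBtop, hpid⟩, rfl⟩
  subst hPB
  refine ⟨P, ?_⟩
  -- `ord_P = e · ord_V` on `F₀`
  have ho := isAddVal_ord_comp (F₀ := F₀) P
  have hle' : ∀ f : F₀, f ≠ 0 → f ∈ V.toValuationSubring → 0 ≤ P.ord (algebraMap F₀ F f) :=
    fun f _ hf => H52.ord_nonneg_of_mem P (hsub f hf)
  have hπpos : 0 < P.ord (algebraMap F₀ F (π : F₀)) := by
    have h1 : 0 ≤ P.ord (algebraMap F₀ F (π : F₀)) := hle' _ hπ0 π.2
    rcases h1.lt_or_eq with h2 | h2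
    · exact h2
    · exfalso
      apply hπB
      show (algebraMap F₀ F (π : F₀))⁻¹ ∈ P.toValuationSubring
      rw [H52.mem_iff_ord_nonneg P (inv_ne_zero hπF0), P.ord_inv, ← h2]
      simp
  have hnt : ∃ g : F₀, g ≠ 0 ∧ P.ord (algebraMap F₀ F g) ≠ 0 := ⟨π, hπ0, hπpos.ne'⟩
  obtain ⟨e, he, hev⟩ := H52.exists_ord_eq_of_le V ho hle' hnt
  have hmem := H52.mem_iff_of_le V ho hle' hnt
  have hVπ : V.ord (π : F₀) = 1 := V.ord_coe_irreducible hπ
  have hPπ : P.ord (algebraMap F₀ F (π : F₀)) = e := by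
    rw [hev _ hπ0, hVπ, mul_one]
  -- `e ∣ ord_P` on all of `F`
  have hK₀P : ∀ c : K₀, algebraMap K₀ F c ∈ P.toValuationSubring := hK₀B
  have hall : ∀ z : F, z ≠ 0 → e ∣ P.ord z := by
    intro z hz0
    have hz : z ∈ IntermediateField.adjoin F₀ (Set.range (algebraMap K F)) := by
      rw [hgen]; exact IntermediateField.mem_top
    obtain ⟨T, hT, hzT⟩ := IntermediateField.exists_finset_of_mem_adjoin hz
    have key := IntermediateField.induction_on_adjoin_finset T
      (fun L : IntermediateField F₀ F => ∀ z ∈ L, z ≠ 0 → e ∣ P.ord z) ?_ ?_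
    · exact key z hzT hz0
    · -- base
      intro z hz hz0
      obtain ⟨f, rfl⟩ := IntermediateField.mem_bot.mp hz
      have hf0 : f ≠ 0 := by
        rintro rfl
        exact hz0 (map_zero _)
      rw [hev f hf0]
      exact dvd_mul_right e _
    · -- step
      intro L y hy hL z hz hz0
      obtain ⟨a, rfl⟩ := hT hy
      have hz' : z ∈ IntermediateField.adjoin ↥L {algebraMap K F a} := hz
      have : IsScalarTower K₀ ↥L F := IsScalarTower.of_algebraMap_eq (fun c => rfl)
      have h1 : IsIntegral K₀ a := (Algebra.IsAlgebraic.isAlgebraic a).isIntegral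
      have h2 : IsIntegral K₀ (algebraMap K F a) := h1.map (IsScalarTower.toAlgHom K₀ K F)
      refine dvd_ord_of_mem_adjoin (K₀ := K₀) (E := ↥L) P hK₀P
        ⟨algebraMap F₀ F (π : F₀), L.algebraMap_mem _⟩ e he hPπ ?_ (algebraMap K F a) h2
        (minpoly.irreducible h2).separable z hz' hz0
      intro f hf
      exact hL (f : F) f.2 (fun h => hf (Subtype.ext h))
  -- `e = 1`
  have he1 : e = 1 := by
    obtain ⟨ϖ, hϖ⟩ := IsDiscreteValuationRing.exists_irreducible P.toValuationSubring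
    have hϖ0 : (ϖ : F) ≠ 0 := by
      intro h
      exact hϖ.ne_zero (Subtype.ext h)
    have h1 := hall (ϖ : F) hϖ0
    rw [P.ord_coe_irreducible hϖ] at h1
    exact Int.eq_one_of_dvd_one he.le h1
  refine ⟨fun f => ?_, fun f => ?_⟩
  · by_cases hf : f = 0
    · subst hf
      simp
    · rw [hmem f hf]
      exact H52.mem_iff_ord_nonneg P ((_root_.map_ne_zero _).mpr hf)
  · by_cases hf : f = 0
    · subst hf
      simp
    · rw [hev f hf, he1, one_mul]

/-- A discrete valuation ring of `F₀` containing `K₀` as a place of `F₀ / K₀`. -/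
def placeOfDVR (V : ValuationSubring F₀) (hV : ∀ c : K₀, algebraMap K₀ F₀ c ∈ V)
    [IsDiscreteValuationRing V] : Place K₀ F₀ where
  toValuationSubring := V
  algebraMap_mem' := hV
  ne_top' := by
    intro h
    obtain ⟨π, hπ⟩ := IsDiscreteValuationRing.exists_irreducible V
    have hπ0 : (π : F₀) ≠ 0 := fun h0 => hπ.ne_zero (Subtype.ext h0)
    have hinv : (π : F₀)⁻¹ ∈ V :=
      (SetLike.ext_iff.mp h ((π : F₀)⁻¹)).mpr (ValuationSubring.mem_top _)
    exact hπ.not_isUnit (IsUnit.of_mul_eq_one ⟨_, hinv⟩ (Subtype.ext (mul_inv_cancel₀ hπ0)))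
  isPrincipalIdealRing' := inferInstance

@[simp] theorem placeOfDVR_toValuationSubring (V : ValuationSubring F₀)
    (hV : ∀ c : K₀, algebraMap K₀ F₀ c ∈ V) [IsDiscreteValuationRing V] :
    (placeOfDVR V hV).toValuationSubring = V := rfl

/-- If a valuation subring `V` of `F₀` contains the inverses of the nonzero elements of a
valuation subring `A₀` of `K₀`, it contains `K₀`. -/
theorem algebraMap_mem_of_inv_mem (A₀ : ValuationSubring K₀) (V : ValuationSubring F₀)
    (h : ∀ a : ↥A₀, a ≠ 0 → (algebraMap K₀ F₀ (a : K₀))⁻¹ ∈ V) :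
    ∀ c : K₀, algebraMap K₀ F₀ c ∈ V := by
  -- units of `A₀`
  have hunit : ∀ a : K₀, a ∈ A₀ → a⁻¹ ∈ A₀ → algebraMap K₀ F₀ a ∈ V := by
    intro a ha hinv
    by_cases ha0 : a = 0
    · rw [ha0, map_zero]; exact V.zero_mem
    have := h ⟨a⁻¹, hinv⟩ (fun h0 => inv_ne_zero ha0 (congrArg Subtype.val h0))
    simpa using this
  have hA : ∀ a : K₀, a ∈ A₀ → algebraMap K₀ F₀ a ∈ V := by
    intro a ha
    by_cases hinv : a⁻¹ ∈ A₀
    · exact hunit a ha hinv
    · -- `a` is a nonunit, so `1 + a` is a unit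
      have h1 : (1 + a) ∈ A₀ := A₀.add_mem _ _ A₀.one_mem ha
      have h2 : (1 + a)⁻¹ ∈ A₀ := by
        have hnu : ¬ IsUnit (⟨a, ha⟩ : ↥A₀) := by
          intro hu
          obtain ⟨b, hb⟩ := hu.exists_right_inv
          have hb' : a * (b : K₀) = 1 := congrArg Subtype.val hb
          have : a⁻¹ = (b : K₀) := (eq_inv_of_mul_eq_one_right hb').symm
          exact hinv (this ▸ b.2)
        have hu1 : IsUnit ((1 : ↥A₀) + ⟨a, ha⟩) := by
          have h3 : IsUnit (((1 : ↥A₀) + ⟨a, ha⟩) + (-⟨a, ha⟩)) := by simp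
          rcases IsLocalRing.isUnit_or_isUnit_of_isUnit_add h3 with h4 | h4
          · exact h4
          · exact absurd (by simpa using h4) hnu
        obtain ⟨b, hb⟩ := hu1.exists_right_inv
        have hb' : (1 + a) * (b : K₀) = 1 := congrArg Subtype.val hb
        have : (1 + a)⁻¹ = (b : K₀) := (eq_inv_of_mul_eq_one_right hb').symm
        exact this ▸ b.2
      have h3 := hunit (1 + a) h1 h2
      have h4 : algebraMap K₀ F₀ a = algebraMap K₀ F₀ (1 + a) - 1 := by
        rw [map_add, map_one]; ring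
      rw [h4]
      exact sub_mem h3 V.one_mem
  intro c
  rcases A₀.mem_or_inv_mem c with hc | hc
  · exact hA c hc
  · by_cases hc0 : c = 0
    · rw [hc0, map_zero]; exact V.zero_mem
    have := h ⟨c⁻¹, hc⟩ (fun h0 => inv_ne_zero hc0 (congrArg Subtype.val h0))
    simpa using this

/-- **`hdiv`** of `H19.exists_descent`: divisibility of the divisor of `u` over `K` gives
divisibility at every discrete valuation ring of `F₀ / K₀`. -/
theorem exists_unit_div_pow [CharZero K₀] [Algebra.IsAlgebraic K₀ K]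
    (x : F) [FiniteDimensional K⟮x⟯ F]
    (hgen : IntermediateField.adjoin F₀ (Set.range (algebraMap K F)) = ⊤)
    (u : F₀) (p : ℕ) (hord : ∀ P : Place K F, (p : ℤ) ∣ P.ord (algebraMap F₀ F u))
    (V : ValuationSubring F₀) (hV : ∀ c : K₀, algebraMap K₀ F₀ c ∈ V)
    [IsDiscreteValuationRing V] :
    ∃ t : F₀, t ≠ 0 ∧ u / t ^ p ∈ V ∧ (u / t ^ p)⁻¹ ∈ V := by
  by_cases hu : u = 0
  · exact ⟨1, one_ne_zero, by simp [hu, V.zero_mem], by simp [hu, V.zero_mem]⟩
  set V' : Place K₀ F₀ := placeOfDVR V hV with hV'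
  obtain ⟨P, -, hP⟩ := exists_place_over x hgen V'
  obtain ⟨n, hn⟩ := hord P
  rw [hP u] at hn
  obtain ⟨π, hπ⟩ := IsDiscreteValuationRing.exists_irreducible V'.toValuationSubring
  have hπ0 : (π : F₀) ≠ 0 := fun h0 => hπ.ne_zero (Subtype.ext h0)
  have hπ1 : V'.ord (π : F₀) = 1 := V'.ord_coe_irreducible hπ
  set t : F₀ := (π : F₀) ^ n with ht
  have ht0 : t ≠ 0 := zpow_ne_zero _ hπ0
  have htp0 : t ^ p ≠ 0 := pow_ne_zero _ ht0
  have hordt : V'.ord (t ^ p) = p * n := by
    rw [(H52.isAddVal_ord V').map_pow ht0, ht, V'.ord_zpow, hπ1, mul_one]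
  have hq0 : u / t ^ p ≠ 0 := div_ne_zero hu htp0
  have hq : V'.ord (u / t ^ p) = 0 := by
    rw [(H52.isAddVal_ord V').map_div hu htp0, hn, hordt, sub_self]
  refine ⟨t, ht0, ?_, ?_⟩
  · have := (H52.mem_iff_ord_nonneg V' hq0).mpr hq.ge
    exact this
  · have := (H52.mem_iff_ord_nonneg V' (inv_ne_zero hq0)).mpr (by rw [V'.ord_inv, hq]; simp)
    exact this

/-- `hdiv` of `H19.exists_descent`, literal shape (`A₀` a valuation subring of `K₀`, `F₀` an
`A₀`-algebra through `H19.algComap`). -/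
theorem exists_unit_div_pow' [CharZero K₀] [Algebra.IsAlgebraic K₀ K]
    (x : F) [FiniteDimensional K⟮x⟯ F]
    (hgen : IntermediateField.adjoin F₀ (Set.range (algebraMap K F)) = ⊤)
    (A₀ : ValuationSubring K₀) (u : F₀) (p : ℕ)
    (hord : ∀ P : Place K F, (p : ℤ) ∣ P.ord (algebraMap F₀ F u)) :
    letI := H19.algComap A₀ F₀
    ∀ V : ValuationSubring F₀, (∀ a : ↥A₀, a ≠ 0 → (algebraMap ↥A₀ F₀ a)⁻¹ ∈ V) →
      IsDiscreteValuationRing V → ∃ t : F₀, t ≠ 0 ∧ u / t ^ p ∈ V ∧ (u / t ^ p)⁻¹ ∈ V := by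
  intro V hV hdvr
  exact exists_unit_div_pow x hgen u p hord V (algebraMap_mem_of_inv_mem A₀ V fun a ha => hV a ha)

end

end Fermat.Agent.S18.H88
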