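/-
S18 / wave 4, core 2, sub-leaf (N-PL) of K2-N `exists_descent` (helper88):
**descent of the branch condition** (`H74.Setup.branch` over `K` ⟹ `H19.DSetup.branch` over `K₀`).

Setting as in `ConstExt.lean`: `K₀ ⊆ K` algebraic, characteristic `0`, `K` algebraically closed,
`F = F₀ · K` finite over `K(x)`, `x ∈ F₀`.  If the places `P` of `F / K` over `x = c`,
`c ∉ S`, are unramified over `K(x)` (`ord_P (x - c) = 1`), then every discrete valuation ring
`V ⊇ K₀` of `F₀` with `x ∈ V` whose centre avoids `S` has a uniformiser of the form `g(x)`: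
`g` = (a multiple of) the minimal polynomial over `K₀` of the centre `c` of a place `P` over `V`.
-/
import Fermat.Agent.S18.H88.ConstExt
import Fermat.Agent.S24.Ord

set_option autoImplicit false

open AlgebraicCurve Polynomial IntermediateField

noncomputable section

namespace Fermat.Agent.S18.H88

open Fermat.Agent.S24

section

variable {K₀ K F : Type*} [Field K₀] [Field K] [Field F]
  [Algebra K₀ K] [Algebra K F] [Algebra K₀ F] [IsScalarTower K₀ K F]

/-- At an unramified place over `x = c` the minimal polynomial of `c` over `K₀`, evaluated at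
`x`, is a uniformiser. -/
theorem ord_aeval_minpoly_eq_one [CharZero K₀] (P : Place K F) (x : F)
    (hxP : x ∈ P.toValuationSubring) (c : K) (hc : P.ord (x - algebraMap K F c) = 1)
    (hint : IsIntegral K₀ c) :
    P.ord (Polynomial.aeval x (minpoly K₀ c)) = 1 := by
  set gK : K[X] := (minpoly K₀ c).map (algebraMap K₀ K) with hgK
  have hroot : gK.IsRoot c := by
    rw [Polynomial.IsRoot, hgK, Polynomial.eval_map, ← Polynomial.aeval_def]
    exact minpoly.aeval K₀ c
  obtain ⟨h, hh⟩ := Polynomial.dvd_iff_isRoot.mpr hroot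
  have hsep : gK.Separable := ((minpoly.irreducible hint).separable).map
  have hcop : IsCoprime (Polynomial.X - Polynomial.C c) h := by
    rw [hh] at hsep
    exact hsep.isCoprime
  obtain ⟨a, b, hab⟩ := hcop
  have hhc : h.eval c ≠ 0 := by
    intro h0
    have := congrArg (Polynomial.eval c) hab
    simp [h0] at this
  -- `h = C (h c) + (X - C c) * w`
  have hroot2 : (h - Polynomial.C (h.eval c)).IsRoot c := by
    simp [Polynomial.IsRoot]
  obtain ⟨w, hw⟩ := Polynomial.dvd_iff_isRoot.mpr hroot2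
  have hh' : h = Polynomial.C (h.eval c) + (Polynomial.X - Polynomial.C c) * w := by
    rw [← hw]; ring
  set u : F := x - algebraMap K F c with hu
  have hu0 : u ≠ 0 := by
    intro h0
    rw [h0, P.ord_zero] at hc
    exact zero_ne_one hc
  have e1 : Polynomial.aeval x (minpoly K₀ c) = u * Polynomial.aeval x h := by
    rw [← Polynomial.aeval_map_algebraMap K x (minpoly K₀ c), ← hgK, hh, map_mul, map_sub,
      Polynomial.aeval_X, Polynomial.aeval_C]
  have e2 : Polynomial.aeval x h = algebraMap K F (h.eval c) + u * Polynomial.aeval x w := by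
    conv_lhs => rw [hh']
    rw [map_add, map_mul, map_sub, Polynomial.aeval_X, Polynomial.aeval_C, Polynomial.aeval_C]
  have hconst0 : algebraMap K F (h.eval c) ≠ 0 := (_root_.map_ne_zero _).mpr hhc
  have hconst : P.ord (algebraMap K F (h.eval c)) = 0 := ord_algebraMap P hhc
  have hwP : Polynomial.aeval x w ∈ P.toValuationSubring :=
    H78.aeval_mem_valuationSubring P.toValuationSubring P.algebraMap_mem' hxP w
  have hsum := ord_add_eq_of_lt P (f := algebraMap K F (h.eval c))
    (g := u * Polynomial.aeval x w) hconst0 (by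
      by_cases hw0 : Polynomial.aeval x w = 0
      · left; rw [hw0, mul_zero]
      · right
        rw [hconst, P.ord_mul hu0 hw0, hc]
        have := H52.ord_nonneg_of_mem P hwP
        omega)
  rw [← e2] at hsum
  rw [e1, P.ord_mul hu0 hsum.1, hc, hsum.2, hconst, add_zero]

end

section

variable {K₀ K F₀ F : Type*} [Field K₀] [Field K] [Field F₀] [Field F]
  [Algebra K₀ K] [Algebra K₀ F₀] [Algebra K F] [Algebra F₀ F] [Algebra K₀ F]
  [IsScalarTower K₀ K F] [IsScalarTower K₀ F₀ F]

/-- **Descent of the branch condition**, field form: a discrete valuation ring `V ⊇ K₀` of `F₀`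
with `x ∈ V` whose centre avoids the branch set has a uniformiser `g(x)`, `g ∈ K₀[X]`. -/
theorem exists_poly_ord_eq_one [CharZero K₀] [Algebra.IsAlgebraic K₀ K] [IsAlgClosed K]
    (x : F) [FiniteDimensional K⟮x⟯ F] (x₀ : F₀) (hx₀ : algebraMap F₀ F x₀ = x)
    (hgen : IntermediateField.adjoin F₀ (Set.range (algebraMap K F)) = ⊤)
    (S₀ : Set K₀)
    (hbranch : ∀ (P : Place K F) (c : K), (∀ a ∈ S₀, c ≠ algebraMap K₀ K a) →
      0 < P.ord (x - algebraMap K F c) → P.ord (x - algebraMap K F c) = 1)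
    (V : Place K₀ F₀) (hxV : x₀ ∈ V.toValuationSubring)
    (hS : ∀ a ∈ S₀, V.ord (x₀ - algebraMap K₀ F₀ a) = 0) :
    ∃ g : K₀[X], V.ord (Polynomial.aeval x₀ g) = 1 := by
  subst hx₀
  set x : F := algebraMap F₀ F x₀ with hx
  obtain ⟨P, hPmem, hPord⟩ := exists_place_over x hgen V
  have hxP : x ∈ P.toValuationSubring := (hPmem x₀).mpr hxV
  have : Algebra.IsAlgebraic (IntermediateField.adjoin K {x}) F := Algebra.IsAlgebraic.of_finite _ _
  -- the centre
  have hcen : ∃ c : K, 0 < P.ord (x - algebraMap K F c) := by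
    rcases exists_center x P with hneg | h
    · exfalso
      by_cases hx0 : x = 0
      · rw [hx0, P.ord_zero] at hneg
        exact lt_irrefl _ hneg
      · have := (H52.mem_iff_ord_nonneg P hx0).mp hxP
        omega
    · exact h
  obtain ⟨c, hc⟩ := hcen
  have hint : IsIntegral K₀ c := (Algebra.IsAlgebraic.isAlgebraic c).isIntegral
  have hcS : ∀ a ∈ S₀, c ≠ algebraMap K₀ K a := by
    rintro a ha rfl
    have h1 := hS a ha
    have h2 : x - algebraMap K F (algebraMap K₀ K a)
        = algebraMap F₀ F (x₀ - algebraMap K₀ F₀ a) := by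
      rw [map_sub, ← IsScalarTower.algebraMap_apply K₀ F₀ F,
        ← IsScalarTower.algebraMap_apply K₀ K F]
    rw [h2, hPord, h1] at hc
    exact lt_irrefl _ hc
  have hc1 := hbranch P c hcS hc
  refine ⟨minpoly K₀ c, ?_⟩
  rw [← hPord, ← Polynomial.aeval_algebraMap_apply]
  exact ord_aeval_minpoly_eq_one P x hxP c hc1 hint

/-- An element of order `1` at a place is a uniformiser, in the shape of `H19.DSetup.branch`. -/
theorem uniformizer_of_ord_eq_one (V : Place K₀ F₀) {y : F₀} (hy : V.ord y = 1) :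
    y ∈ V.toValuationSubring ∧ y⁻¹ ∉ V.toValuationSubring ∧
      ∀ t ∈ V.toValuationSubring, t⁻¹ ∉ V.toValuationSubring → t / y ∈ V.toValuationSubring := by
  have hy0 : y ≠ 0 := by
    rintro rfl
    rw [V.ord_zero] at hy
    exact zero_ne_one hy
  refine ⟨(H52.mem_iff_ord_nonneg V hy0).mpr (by omega), ?_, ?_⟩
  · intro h
    have := (H52.mem_iff_ord_nonneg V (inv_ne_zero hy0)).mp h
    rw [V.ord_inv] at this
    omega
  · intro t ht htinv
    have ht0 : t ≠ 0 := by
      rintro rfl
      exact htinv (by rw [inv_zero]; exact V.toValuationSubring.zero_mem)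
    have h1 := (H52.mem_iff_ord_nonneg V ht0).mp ht
    have h2 : ¬ 0 ≤ V.ord t⁻¹ := fun h => htinv ((H52.mem_iff_ord_nonneg V (inv_ne_zero ht0)).mpr h)
    rw [V.ord_inv] at h2
    rw [H52.mem_iff_ord_nonneg V (div_ne_zero ht0 hy0), (H52.isAddVal_ord V).map_div ht0 hy0, hy]
    omega

/-- **`DSetup.branch`** of `H19.exists_descent`, literal shape: `A₀` a valuation subring of `K₀`,
`F₀` an `A₀`-algebra through `H19.algComap`, `S` a finite set of points of `A₀`.  If the places
of `F / K` over `x = c`, `c ∉ S`, are unramified over `K(x)`, then every discrete valuation ring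
`V` of `F₀ / K₀` with `x ∈ V` and centre off `S` has a uniformiser `g(x)`, `g ∈ A₀[X]`. -/
theorem branch_of_places [CharZero K₀] [Algebra.IsAlgebraic K₀ K] [IsAlgClosed K]
    (x : F) [FiniteDimensional K⟮x⟯ F] (x₀ : F₀) (hx₀ : algebraMap F₀ F x₀ = x)
    (hgen : IntermediateField.adjoin F₀ (Set.range (algebraMap K F)) = ⊤)
    (A₀ : ValuationSubring K₀) (S : Finset ↥A₀)
    (hbranch : ∀ (P : Place K F) (c : K), (∀ a ∈ S, c ≠ algebraMap K₀ K (a : K₀)) →
      0 < P.ord (x - algebraMap K F c) → P.ord (x - algebraMap K F c) = 1) :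
    letI := H19.algComap A₀ F₀
    ∀ V : ValuationSubring F₀, (∀ a : ↥A₀, a ≠ 0 → (algebraMap ↥A₀ F₀ a)⁻¹ ∈ V) →
      IsDiscreteValuationRing V → x₀ ∈ V → (∀ a ∈ S, (x₀ - algebraMap ↥A₀ F₀ a)⁻¹ ∈ V) →
      ∃ g : (↥A₀)[X], Polynomial.aeval x₀ g ∈ V ∧ (Polynomial.aeval x₀ g)⁻¹ ∉ V ∧
        ∀ t ∈ V, t⁻¹ ∉ V → t / Polynomial.aeval x₀ g ∈ V := by
  let _ := H19.algComap A₀ F₀
  intro V hV hdvr hxV hSV
  have hK₀V : ∀ c : K₀, algebraMap K₀ F₀ c ∈ V :=
    algebraMap_mem_of_inv_mem A₀ V fun a ha => hV a ha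
  set V' : Place K₀ F₀ := placeOfDVR V hK₀V with hV'
  have hS' : ∀ a ∈ {a : K₀ | ∃ s ∈ S, ((s : ↥A₀) : K₀) = a},
      V'.ord (x₀ - algebraMap K₀ F₀ a) = 0 := by
    rintro a ⟨s, hs, rfl⟩
    by_cases h0 : x₀ - algebraMap K₀ F₀ (s : K₀) = 0
    · rw [h0, V'.ord_zero]
    · have h1 : x₀ - algebraMap K₀ F₀ (s : K₀) ∈ V'.toValuationSubring :=
        sub_mem hxV (hK₀V _)
      have h2 : (x₀ - algebraMap K₀ F₀ (s : K₀))⁻¹ ∈ V'.toValuationSubring := hSV s hs
      have h3 := (H52.mem_iff_ord_nonneg V' h0).mp h1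
      have h4 := (H52.mem_iff_ord_nonneg V' (inv_ne_zero h0)).mp h2
      rw [V'.ord_inv] at h4
      omega
  obtain ⟨g₀, hg₀⟩ := exists_poly_ord_eq_one x x₀ hx₀ hgen
    {a : K₀ | ∃ s ∈ S, ((s : ↥A₀) : K₀) = a}
    (fun P c hc => hbranch P c fun a ha => hc (a : K₀) ⟨a, ha, rfl⟩) V' hxV hS'
  -- clear denominators
  obtain ⟨b, hbM, hb⟩ := IsLocalization.integerNormalization_spec (nonZeroDivisors ↥A₀) g₀
  set g : (↥A₀)[X] := IsLocalization.integerNormalization (nonZeroDivisors ↥A₀) g₀ with hg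
  have hb0 : ((b : ↥A₀) : K₀) ≠ 0 := fun h => nonZeroDivisors.ne_zero hbM (Subtype.ext h)
  have heval : Polynomial.aeval x₀ g = algebraMap K₀ F₀ ((b : ↥A₀) : K₀) * Polynomial.aeval x₀ g₀ := by
    have h1 : Polynomial.aeval x₀ g
        = Polynomial.eval₂ ((algebraMap K₀ F₀).comp (algebraMap ↥A₀ K₀)) x₀ g := rfl
    rw [h1, ← Polynomial.eval₂_map, hb, Algebra.smul_def, Polynomial.algebraMap_apply,
      Polynomial.eval₂_mul, Polynomial.eval₂_C, Polynomial.aeval_def]
    rfl
  have hg₀0 : Polynomial.aeval x₀ g₀ ≠ 0 := by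
    intro h0
    rw [h0, V'.ord_zero] at hg₀
    exact zero_ne_one hg₀
  have hord : V'.ord (Polynomial.aeval x₀ g) = 1 := by
    rw [heval, V'.ord_mul ((_root_.map_ne_zero _).mpr hb0) hg₀0, ord_algebraMap V' hb0, hg₀,
      zero_add]
  exact ⟨g, uniformizer_of_ord_eq_one V' hord⟩

end

end Fermat.Agent.S18.H88
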